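import Fermat.Agent.S18.H504.ValDvr
import Fermat.Agent.S24.H504.PlaceOrd
import Fermat.Agent.S24.FFFinite

/-!
# S18 / T3 generic core (CHAR-FREE): zeros exist, functions without zeros are constant

* `exists_valuationSubring_nonunit` : Chevalley — a transcendental `u` is a non-unit of some
  valuation ring of `F` containing `K`.
* `exists_place_ord_pos` : `u` transcendental, `F` finite over `K(u)` ⟹ `∃ v, 0 < v.ord u`.
* `exists_place_eq` : every nontrivial valuation ring of `F` containing `K` is a `Place`.
* `constOfOrdZero_of_finite` : `K` algebraically closed, `F` finite over `K(x)`, `x`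
  transcendental ⟹ a nonzero function without zeros and poles is constant
  (`= H94.ConstOfOrdZero K F`, unfolded).  No assumption on the characteristic.
-/

set_option autoImplicit false

namespace Fermat.Agent.S18.H504

open AlgebraicCurve IntermediateField Polynomial Fermat.Agent.S24

variable {K F : Type*} [Field K] [Field F] [Algebra K F]

/-- **Chevalley.** A transcendental element is a non-unit in some valuation ring over `K`. -/
theorem exists_valuationSubring_nonunit {u : F} (hu : Transcendental K u) :
    ∃ O : ValuationSubring F, (∀ a : K, algebraMap K F a ∈ O) ∧ u ∈ O ∧ u⁻¹ ∉ O := by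
  set A : Subring F := (Algebra.adjoin K {u}).toSubring with hA
  have huA : u ∈ A := Algebra.self_mem_adjoin_singleton K u
  have hne : Ideal.span {(⟨u, huA⟩ : A)} ≠ ⊤ := by
    intro htop
    rw [Ideal.span_singleton_eq_top] at htop
    obtain ⟨⟨b, hb⟩, hub⟩ := isUnit_iff_exists_inv.mp htop
    have hb' : b ∈ Algebra.adjoin K {u} := hb
    rw [Algebra.adjoin_singleton_eq_range_aeval] at hb'
    obtain ⟨p, hp⟩ := hb'
    have hmul : u * b = 1 := congrArg Subtype.val hub
    apply hu
    refine ⟨X * p - 1, ?_, ?_⟩
    · intro h0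
      have := congrArg (fun q => q.coeff 0) h0
      simp at this
    · have hp' : aeval u p = b := hp
      simp [hp', hmul]
  obtain ⟨O, hAO, hsub⟩ := Ideal.image_subset_nonunits_valuationSubring _ hne
  have hunon : u ∈ O.nonunits := hsub ⟨⟨u, huA⟩, Ideal.subset_span rfl, rfl⟩
  refine ⟨O, fun a => hAO (Subalgebra.algebraMap_mem _ a), ?_, ?_⟩
  · exact O.nonunits_subset hunon
  · intro hinv
    have h1 : O.valuation u < 1 := (O.mem_nonunits_iff).mp hunon
    have h2 : O.valuation u⁻¹ ≤ 1 := (O.valuation_le_one_iff _).mpr hinv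
    rw [map_inv₀] at h2
    have hu0 : O.valuation u ≠ 0 := by
      rw [Valuation.ne_zero_iff]
      rintro rfl
      exact hu (isAlgebraic_zero)
    have := (inv_le_one₀ (zero_lt_iff.mpr hu0)).mp h2
    exact absurd h1 (not_lt.mpr this)

/-- **Zeros exist** (char-free). -/
theorem exists_place_ord_pos {u : F} (hu : Transcendental K u) [FiniteDimensional K⟮u⟯ F] :
    ∃ v : Place K F, 0 < v.ord u := by
  obtain ⟨O, hK, huO, huO'⟩ := exists_valuationSubring_nonunit hu
  refine ⟨placeOfValuationSubring O hK huO huO', ?_⟩
  set v := placeOfValuationSubring O hK huO huO' with hv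
  have h1 : 0 ≤ v.ord u := (S24.H504.mem_iff_ord_nonneg' v u).mp huO
  have h2 : ¬ 0 ≤ v.ord u⁻¹ := fun h => huO' ((S24.H504.mem_iff_ord_nonneg' v u⁻¹).mpr h)
  rw [Place.ord_inv] at h2
  omega

/-- A nonzero non-unit of a valuation ring containing `K` is transcendental over `K`. -/
theorem transcendental_of_nonunit (O : ValuationSubring F) (hK : ∀ a : K, algebraMap K F a ∈ O)
    {u : F} (hu' : u⁻¹ ∉ O) : Transcendental K u := by
  intro halg
  apply hu'
  have hinv : IsAlgebraic K u⁻¹ := halg.inv
  have hint : IsIntegral K u⁻¹ := hinv.isIntegral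
  obtain ⟨p, hpm, hp⟩ := hint
  -- `u⁻¹` is integral over `O`
  let φ : K →+* O := (algebraMap K F).codRestrict O.toSubring hK
  have hint' : IsIntegral O u⁻¹ := by
    refine ⟨p.map φ, hpm.map φ, ?_⟩
    rw [eval₂_map]
    have : (algebraMap O F).comp φ = algebraMap K F := by
      ext a; rfl
    rw [this]
    exact hp
  obtain ⟨y, hy⟩ := IsIntegrallyClosed.isIntegral_iff.mp hint'
  rw [← hy]
  exact y.2

/-- **Every nontrivial valuation ring of a function field is a place** (char-free). -/
theorem exists_place_eq {x : F} (hx : Transcendental K x) [FiniteDimensional K⟮x⟯ F]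
    (O : ValuationSubring F) (hK : ∀ a : K, algebraMap K F a ∈ O) (hO : O ≠ ⊤) :
    ∃ v : Place K F, v.toValuationSubring = O := by
  have hex : ∃ f : F, f ∉ O := by
    by_contra h
    push Not at h
    exact hO (SetLike.ext fun f => ⟨fun _ => ValuationSubring.mem_top f, fun _ => h f⟩)
  obtain ⟨f, hf⟩ := hex
  have hfi : f⁻¹ ∈ O := (O.mem_or_inv_mem f).resolve_left hf
  have hfi' : (f⁻¹)⁻¹ ∉ O := by rwa [inv_inv]
  have htr : Transcendental K f⁻¹ := transcendental_of_nonunit O hK hfi'
  have : FiniteDimensional K⟮f⁻¹⟯ F := FF.finiteDimensional_adjoin_of_transcendental hx htr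
  exact ⟨placeOfValuationSubring O hK hfi hfi', rfl⟩

/-- **CONST, char-free.** Over an algebraically closed constant field, a function without zeros
is constant. -/
theorem const_of_forall_ord_le_zero_charFree [IsAlgClosed K] {x : F} (hx : Transcendental K x)
    [FiniteDimensional K⟮x⟯ F] (u : F) (h : ∀ v : Place K F, v.ord u ≤ 0) :
    ∃ c : K, u = algebraMap K F c := by
  by_contra hc
  have hnr : u ∉ (algebraMap K F).range := fun ⟨c, hc'⟩ => hc ⟨c, hc'.symm⟩
  have hut : Transcendental K u := FF.transcendental_of_not_mem_range hnr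
  have : FiniteDimensional K⟮u⟯ F := FF.finiteDimensional_adjoin_of_transcendental hx hut
  obtain ⟨v, hv⟩ := exists_place_ord_pos hut
  have := h v
  omega

/-- **T3 generic core** (`= H94.ConstOfOrdZero K F`, unfolded; any characteristic). -/
theorem constOfOrdZero_of_finite [IsAlgClosed K] {x : F} (hx : Transcendental K x)
    [FiniteDimensional K⟮x⟯ F] :
    ∀ u : F, u ≠ 0 → (∀ v : Place K F, v.ord u = 0) → ∃ c : K, u = algebraMap K F c :=
  fun u _ h => const_of_forall_ord_le_zero_charFree hx u fun v => (h v).le

end Fermat.Agent.S18.H504
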